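import Fermat.Agent.ToralPeriodic.Main
import Mathlib.Analysis.Fourier.AddCircleMulti

/-!
# Characters of the torus and toral endomorphisms

The character of `k` composed with `toral B` is the character of `k B`; for `det B ≠ 0` it is
trivial on the kernel of `toral B` exactly when `k ∈ ℤ ^ ι B`.
-/

set_option autoImplicit false

noncomputable section

namespace FA.ToralEquidistribution

open FA.ToralEntropy FA.ToralPeriodic UnitAddTorus Matrix Set

variable {ι : Type*} [Fintype ι]

/-- `k ⬝ x` in `ℝ / ℤ`. -/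
def pairing (k : ι → ℤ) (x : ι → UnitAddCircle) : UnitAddCircle := ∑ i, k i • x i

theorem mFourier_eq_toCircle (k : ι → ℤ) (x : ι → UnitAddCircle) :
    mFourier k x = (AddCircle.toCircle (pairing k x) : ℂ) := by
  classical
  show ∏ i, (AddCircle.toCircle (k i • x i) : ℂ) = _
  rw [pairing]
  induction (Finset.univ : Finset ι) using Finset.induction with
  | empty => simp
  | insert i s hi ih =>
    rw [Finset.prod_insert hi, Finset.sum_insert hi, AddCircle.toCircle_add, Circle.coe_mul, ih]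

theorem mFourier_eq_one_iff (k : ι → ℤ) (x : ι → UnitAddCircle) :
    mFourier k x = 1 ↔ pairing k x = 0 := by
  rw [mFourier_eq_toCircle, Circle.coe_eq_one]
  exact ⟨fun h => AddCircle.injective_toCircle one_ne_zero (by rw [h, AddCircle.toCircle_zero]),
    fun h => by rw [h, AddCircle.toCircle_zero]⟩

theorem mFourier_map_add (k : ι → ℤ) (x y : ι → UnitAddCircle) :
    mFourier k (x + y) = mFourier k x * mFourier k y := by
  simp only [mFourier_eq_toCircle, pairing, Pi.add_apply, smul_add, Finset.sum_add_distrib,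
    AddCircle.toCircle_add, Circle.coe_mul]

theorem mFourier_map_zero (k : ι → ℤ) : mFourier k (0 : ι → UnitAddCircle) = 1 := by
  rw [mFourier_eq_one_iff]
  simp [pairing]

theorem pairing_toral (k : ι → ℤ) (B : Matrix ι ι ℤ) (x : ι → UnitAddCircle) :
    pairing k (toral B x) = pairing (k ᵥ* B) x := by
  simp only [pairing, toral, vecMul, dotProduct, Finset.sum_smul, Finset.smul_sum, mul_smul]
  exact Finset.sum_comm

theorem mFourier_toral (k : ι → ℤ) (B : Matrix ι ι ℤ) (x : ι → UnitAddCircle) :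
    mFourier k (toral B x) = mFourier (k ᵥ* B) x := by
  rw [mFourier_eq_toCircle, mFourier_eq_toCircle, pairing_toral]

theorem pairing_proj (k : ι → ℤ) (v : ι → ℝ) :
    pairing k (proj v) = ((∑ i, (k i : ℝ) * v i : ℝ) : UnitAddCircle) := by
  rw [show ((∑ i, (k i : ℝ) * v i : ℝ) : UnitAddCircle) =
      ∑ i, (((k i : ℝ) * v i : ℝ) : UnitAddCircle)
    from map_sum (QuotientAddGroup.mk' (AddSubgroup.zmultiples (1 : ℝ))) _ _]
  exact Finset.sum_congr rfl fun i _ => by rw [← zsmul_eq_mul]; rfl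

/-- A character is constant exactly when it is trivial. -/
theorem exists_mFourier_ne_one {k : ι → ℤ} (hk : k ≠ 0) :
    ∃ x : ι → UnitAddCircle, mFourier k x ≠ 1 := by
  classical
  obtain ⟨i, hi⟩ := Function.ne_iff.1 hk
  refine ⟨proj (Pi.single i (1 / (2 * (k i : ℝ)))), fun h => ?_⟩
  rw [mFourier_eq_one_iff, pairing_proj, AddCircle.coe_eq_zero_iff] at h
  obtain ⟨m, hm⟩ := h
  have hi' : (k i : ℝ) ≠ 0 := Int.cast_ne_zero.2 hi
  simp [Pi.single_apply, Finset.sum_ite_eq'] at hm
  field_simp at hm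
  have : (2 * m : ℤ) = 1 := by exact_mod_cast (by linarith : (2 * m : ℝ) = 1)
  omega

variable [DecidableEq ι]

/-- **The characters trivial on the kernel.** -/
theorem exists_vecMul_eq {B : Matrix ι ι ℤ} (hB : B.det ≠ 0) {k : ι → ℤ}
    (h : ∀ x, toral B x = 0 → mFourier k x = 1) : ∃ m : ι → ℤ, m ᵥ* B = k := by
  set R := B.map (Int.cast : ℤ → ℝ) with hR
  have hunit : IsUnit R.det := by
    rw [hR, ← Int.cast_det]
    exact isUnit_iff_ne_zero.2 (Int.cast_ne_zero.2 hB)
  have hint : ∀ j, ∃ m : ℤ, ((fun i => (k i : ℝ)) ᵥ* R⁻¹) j = m := by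
    intro j
    have hker : toral B (proj (R⁻¹ *ᵥ Pi.single j 1)) = 0 := by
      rw [toral_proj, realMap, mulVecLin_apply, ← hR, mulVec_mulVec, mul_nonsing_inv _ hunit,
        one_mulVec]
      exact (proj_eq_zero_iff _).2 ⟨Pi.single j 1, funext fun i => by
        by_cases hij : i = j <;> simp [hij]⟩
    have hp := h _ hker
    rw [mFourier_eq_one_iff, pairing_proj, AddCircle.coe_eq_zero_iff] at hp
    obtain ⟨m, hm⟩ := hp
    refine ⟨m, ?_⟩
    rw [zsmul_eq_mul, mul_one] at hm
    rw [hm, ← dotProduct, dotProduct_mulVec, dotProduct_single_one]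
  choose m hm using hint
  refine ⟨m, funext fun i => ?_⟩
  have h' : ((fun i => (k i : ℝ)) ᵥ* R⁻¹) ᵥ* R = fun i => (k i : ℝ) := by
    rw [vecMul_vecMul, nonsing_inv_mul _ hunit, vecMul_one]
  rw [funext hm] at h'
  have := congrFun h' i
  simp only [hR, vecMul, dotProduct, Matrix.map_apply] at this
  simp only [vecMul, dotProduct]
  exact_mod_cast this

/-- The average over the fixed points of the `n`-th iterate. -/
def periodicMean (A : Matrix ι ι ℤ) (n : ℕ) (f : (ι → UnitAddCircle) → ℂ) : ℂ :=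
  (Nat.card {x | (toral A)^[n] x = x} : ℂ)⁻¹ * ∑ᶠ x ∈ {x | (toral A)^[n] x = x}, f x

theorem zero_mem_fixed (A : Matrix ι ι ℤ) (n : ℕ) :
    (0 : ι → UnitAddCircle) ∈ {x | (toral A)^[n] x = x} := by
  rw [fixedPoints_eq]
  show toral _ 0 = 0
  funext i
  simp [toral]

theorem periodicMean_one (A : Matrix ι ι ℤ) (n : ℕ) {f : (ι → UnitAddCircle) → ℂ}
    (hfin : {x | (toral A)^[n] x = x}.Finite) (hf : ∀ x ∈ {x | (toral A)^[n] x = x}, f x = 1) :
    periodicMean A n f = 1 := by
  have : Finite {x | (toral A)^[n] x = x} := hfin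
  rw [periodicMean, finsum_mem_congr rfl hf, finsum_mem_eq_finite_toFinset_sum _ hfin,
    Finset.sum_const, nsmul_eq_mul, mul_one, ← Set.ncard_eq_toFinset_card _ hfin,
    ← Nat.card_coe_set_eq, inv_mul_cancel₀]
  exact Nat.cast_ne_zero.2 (Nat.card_ne_zero.2 ⟨⟨⟨0, zero_mem_fixed A n⟩⟩, inferInstance⟩)

/-- The mean of a character that is not trivial on the periodic points. -/
theorem periodicMean_eq_zero (A : Matrix ι ι ℤ) {n : ℕ} (hdet : (A ^ n - 1).det ≠ 0) {k : ι → ℤ}
    (hk : ∀ m : ι → ℤ, m ᵥ* (A ^ n - 1) ≠ k) :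
    periodicMean A n (mFourier k) = 0 := by
  classical
  obtain ⟨x₀, hx₀, hne⟩ : ∃ x₀, toral (A ^ n - 1) x₀ = 0 ∧ mFourier k x₀ ≠ 1 := by
    by_contra! h
    obtain ⟨m, hm⟩ := exists_vecMul_eq hdet h
    exact hk m hm
  have hfin := (fixedPoints_card A hdet).1
  rw [periodicMean, finsum_mem_eq_finite_toFinset_sum _ hfin, mul_eq_zero]
  right
  set S := ∑ x ∈ hfin.toFinset, mFourier k x
  have hS : mFourier k x₀ * S = S := by
    rw [Finset.mul_sum]
    refine Finset.sum_nbij' (· + x₀) (· - x₀) (fun x hx => ?_) (fun x hx => ?_)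
      (fun x _ => add_sub_cancel_right x x₀) (fun x _ => sub_add_cancel x x₀) fun x _ => ?_
    · simp only [Set.Finite.mem_toFinset, fixedPoints_eq, mem_ofPred_eq] at hx ⊢
      rw [toral_add, hx, hx₀, add_zero]
    · simp only [Set.Finite.mem_toFinset, fixedPoints_eq, mem_ofPred_eq] at hx ⊢
      rw [toral_sub, hx, hx₀, sub_zero]
    · rw [mFourier_map_add, mul_comm]
  exact (mul_left_eq_self₀.1 hS).resolve_left hne

end FA.ToralEquidistribution

end
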