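import Fermat.Agent.ToralPeriodic.Growth
import Mathlib.NumberTheory.MahlerMeasure
import Mathlib.LinearAlgebra.Matrix.Charpoly.Coeff
import Mathlib.LinearAlgebra.Matrix.ToLinearEquiv
import Mathlib.LinearAlgebra.FreeModule.PID
import Mathlib.RingTheory.Noetherian.Basic

/-!
# A nonzero vector leaves the images of `A ^ n - 1`

If `(A ^ n - 1) m = k`, a fixed multiple of `k` lies in the image of `A ^ n - 1` on the module
generated by the orbit of `k`, so the determinant there divides a fixed number; but it tends to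
infinity by Kronecker's theorem and the growth of the numbers of Lehmer and Pierce.
-/

set_option autoImplicit false

noncomputable section

namespace FA.ToralEquidistribution

open Polynomial Filter Topology Matrix

variable {r : Type*} [Fintype r] [DecidableEq r]

/-- The determinants of `C ^ n - 1` tend to infinity. -/
theorem tendsto_det_atTop [Nonempty r] (C : Matrix r r ℤ)
    (h0 : ∀ z ∈ C.charpoly.aroots ℂ, z ≠ 0)
    (h1 : ∀ z ∈ C.charpoly.aroots ℂ, ∀ m : ℕ, 0 < m → z ^ m ≠ 1) :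
    Tendsto (fun n : ℕ => (C ^ n - 1).det.natAbs) atTop atTop := by
  set f := C.charpoly
  have hf : f ≠ 0 := C.charpoly_monic.ne_zero
  have hM : 0 < (f.map (Int.castRingHom ℂ)).logMahlerMeasure := by
    rw [logMahlerMeasure_eq_log_MahlerMeasure]
    refine Real.log_pos ((one_le_mahlerMeasure_of_ne_zero hf).lt_of_ne fun hM => ?_)
    obtain ⟨z, hz⟩ : ∃ z, z ∈ f.aroots ℂ := by
      refine Multiset.card_pos_iff_exists_mem.1 ?_
      rw [aroots_def, IsAlgClosed.card_roots_eq_natDegree,
        natDegree_map_eq_of_injective (algebraMap ℤ ℂ).injective_int, C.charpoly_natDegree_eq_dim]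
      exact Fintype.card_pos
    obtain ⟨m, hm, hzm⟩ := pow_eq_one_of_mahlerMeasure_eq_one hM.symm (h0 z hz) hz
    exact h1 z hz m hm hzm
  have hlog := ((FA.ToralPeriodic.tendsto_log_pierce hf h1).pos_mul_atTop hM
    (tendsto_natCast_atTop_atTop (R := ℝ)))
  refine tendsto_atTop.2 fun b => ?_
  filter_upwards [hlog.eventually_ge_atTop (Real.log (b + 1)), eventually_ge_atTop 1] with n hn hn1
  rw [div_mul_cancel₀ _ (Nat.cast_ne_zero.2 (Nat.one_le_iff_ne_zero.1 hn1)),
    C.charpoly_monic.leadingCoeff, Int.cast_one, one_pow, one_mul,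
    ← FA.ToralPeriodic.det_pow_sub_one C hn1, Complex.norm_intCast, ← Int.cast_abs,
    Int.abs_eq_natAbs, Int.cast_natCast] at hn
  rcases Nat.eq_zero_or_pos (C ^ n - 1).det.natAbs with h | h
  · rw [h, Nat.cast_zero, Real.log_zero] at hn
    have : b = 0 := by
      by_contra hb
      have : (1 : ℝ) < b + 1 := by
        have : (1 : ℝ) ≤ b := by exact_mod_cast Nat.one_le_iff_ne_zero.2 hb
        linarith
      linarith [Real.log_pos this]
    omega
  · have := (Real.log_le_log_iff (by positivity) (by exact_mod_cast h)).1 hn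
    have : b + 1 ≤ (C ^ n - 1).det.natAbs := by exact_mod_cast this
    omega

variable {ι : Type*} [Fintype ι] [DecidableEq ι]

/-- Eigenvalues of the restriction to an invariant lattice are eigenvalues. -/
theorem mem_aroots_of_intertwine (A : Matrix ι ι ℤ) (C : Matrix r r ℤ)
    (E : (r → ℤ) →ₗ[ℤ] ι → ℤ) (hE : Function.Injective E)
    (hEA : ∀ c, A *ᵥ E c = E (C *ᵥ c)) {z : ℂ} (hz : z ∈ C.charpoly.aroots ℂ) :
    z ∈ A.charpoly.aroots ℂ := by
  have hpow : ∀ (i : ℕ) c, (A ^ i) *ᵥ E c = E ((C ^ i) *ᵥ c) := fun i c => by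
    induction i with
    | zero => simp
    | succ i ih => rw [pow_succ', pow_succ', ← mulVec_mulVec, ih, hEA, mulVec_mulVec]
  have haeval : ∀ c, E ((aeval C A.charpoly) *ᵥ c) = (aeval A A.charpoly) *ᵥ E c := fun c => by
    simp only [aeval_eq_sum_range, sum_mulVec, map_sum, smul_mulVec, map_smul, hpow]
  have hzero : aeval C A.charpoly = 0 :=
    Matrix.ext_of_mulVec_single fun i => hE (by
      rw [haeval, aeval_self_charpoly, zero_mulVec, zero_mulVec, map_zero])
  refine mem_aroots.2 ⟨A.charpoly_monic.ne_zero, ?_⟩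
  set C' := C.map (Int.castRingHom ℂ)
  have hspec : z ∈ spectrum ℂ C' := by
    rw [Matrix.mem_spectrum_iff_isRoot_charpoly, Matrix.charpoly_map]
    exact (mem_roots'.1 hz).2
  have h' : aeval C' (A.charpoly.map (Int.castRingHom ℂ)) = 0 := by
    have hC : C' = (Int.castRingHom ℂ).mapMatrix C := rfl
    rw [hC, aeval_def, eval₂_map]
    have := hom_eval₂ A.charpoly (algebraMap ℤ (Matrix r r ℤ)) (Int.castRingHom ℂ).mapMatrix C
    rw [← aeval_def, hzero, map_zero] at this
    rw [this]
    congr 1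
    exact RingHom.ext_int _ _
  have hne : Nontrivial (Matrix r r ℂ) := by
    rcases isEmpty_or_nonempty r with hr | hr
    · rw [mem_aroots, show C.charpoly = 1 from Matrix.charpoly_isEmpty, aeval_one] at hz
      exact absurd hz.2 one_ne_zero
    · infer_instance
  have h2 := spectrum.subset_polynomial_aeval C' (A.charpoly.map (Int.castRingHom ℂ))
    ⟨z, hspec, rfl⟩
  rw [h', spectrum.zero_eq, Set.mem_singleton_iff] at h2
  rw [aeval_def, ← eval_map]
  exact h2

/-- **A nonzero vector leaves the images of `A ^ n - 1`.** -/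
theorem eventually_ne_sub (A : Matrix ι ι ℤ) (hA : A.det ≠ 0)
    (h1 : ∀ z ∈ A.charpoly.aroots ℂ, ∀ m : ℕ, 0 < m → z ^ m ≠ 1) {k : ι → ℤ} (hk : k ≠ 0) :
    ∀ᶠ n : ℕ in atTop, ∀ m : ι → ℤ, (A ^ n - 1) *ᵥ m ≠ k := by
  classical
  set M := Submodule.span ℤ (Set.range fun i : ℕ => (A ^ i) *ᵥ k) with hM
  have hinv : ∀ x ∈ M, A.mulVecLin x ∈ M := by
    intro x hx
    have := Submodule.mem_map_of_mem (f := A.mulVecLin) hx
    rw [hM, Submodule.map_span] at this
    refine Submodule.span_mono ?_ this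
    rintro _ ⟨_, ⟨i, rfl⟩, rfl⟩
    exact ⟨i + 1, by simp [pow_succ', mulVec_mulVec]⟩
  obtain ⟨d, b⟩ := Submodule.basisOfPid (Pi.basisFun ℤ ι) M
  set C := LinearMap.toMatrix b b (A.mulVecLin.restrict hinv) with hC
  set E : (Fin d → ℤ) →ₗ[ℤ] ι → ℤ := M.subtype ∘ₗ b.equivFun.symm.toLinearMap with hEdef
  have hE : Function.Injective E := M.injective_subtype.comp b.equivFun.symm.injective
  have hEmem : ∀ c, E c ∈ M := fun c => (b.equivFun.symm c).2
  have hEA : ∀ c, A *ᵥ E c = E (C *ᵥ c) := fun c => by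
    have h := LinearMap.toMatrix_mulVec_repr b b (A.mulVecLin.restrict hinv) (b.equivFun.symm c)
    rw [← b.equivFun_apply, LinearEquiv.apply_symm_apply] at h
    rw [hC, h]
    show _ = ((b.equivFun.symm (b.equivFun _) : M) : ι → ℤ)
    rw [LinearEquiv.symm_apply_apply]
    rfl
  have hEn : ∀ (i : ℕ) c, (A ^ i - 1) *ᵥ E c = E ((C ^ i - 1) *ᵥ c) := fun i c => by
    have hpow : (A ^ i) *ᵥ E c = E ((C ^ i) *ᵥ c) := by
      induction i with
      | zero => simp
      | succ i ih => rw [pow_succ', pow_succ', ← mulVec_mulVec, ih, hEA, mulVec_mulVec]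
    rw [sub_mulVec, sub_mulVec, one_mulVec, one_mulVec, map_sub, hpow]
  have hkM : k ∈ M := Submodule.subset_span ⟨0, by simp⟩
  have hd : Nonempty (Fin d) := by
    rcases Nat.eq_zero_or_pos d with h | h
    · subst h
      exact absurd (congrArg Subtype.val (b.repr.injective
        (Subsingleton.elim (b.repr ⟨k, hkM⟩) (b.repr 0)))) hk
    · exact ⟨⟨0, h⟩⟩
  have hz0 : ∀ z ∈ C.charpoly.aroots ℂ, z ≠ 0 := fun z hz h => by
    have hz' := (mem_aroots.1 (mem_aroots_of_intertwine A C E hE hEA hz)).2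
    rw [h, ← coeff_zero_eq_aeval_zero', map_eq_zero_iff _ (algebraMap ℤ ℂ).injective_int] at hz'
    exact hA (by rw [A.det_eq_sign_charpoly_coeff, hz', mul_zero])
  have hgrow := tendsto_det_atTop C hz0 fun z hz => h1 z (mem_aroots_of_intertwine A C E hE hEA hz)
  -- the elements with a multiple in `M` have a common multiple in `M`
  let W : Submodule ℤ (ι → ℤ) :=
    { carrier := {v | ∃ N : ℤ, N ≠ 0 ∧ N • v ∈ M}
      zero_mem' := ⟨1, one_ne_zero, by simp⟩
      add_mem' := fun {u v} ⟨N, hN, hu⟩ ⟨N', hN', hv⟩ => ⟨N * N', mul_ne_zero hN hN', by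
        rw [smul_add]
        exact add_mem (by rw [mul_comm, mul_smul]; exact M.smul_mem _ hu)
          (by rw [mul_smul]; exact M.smul_mem _ hv)⟩
      smul_mem' := fun c v ⟨N, hN, hv⟩ => ⟨N, hN, by
        rw [smul_comm]; exact M.smul_mem _ hv⟩ }
  obtain ⟨S, hS⟩ := IsNoetherian.noetherian W
  have hSW : ∀ s ∈ S, ∃ N : ℤ, N ≠ 0 ∧ N • s ∈ M := fun s hs =>
    (hS ▸ Submodule.subset_span hs : s ∈ W)
  choose! N hN0 hNM using hSW
  set P := ∏ s ∈ S, N s
  have hP0 : P ≠ 0 := Finset.prod_ne_zero_iff.2 hN0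
  have hPM : ∀ v ∈ W, P • v ∈ M := by
    intro v hv
    rw [← hS] at hv
    induction hv using Submodule.span_induction with
    | mem s hs =>
      obtain ⟨t, ht⟩ := Finset.dvd_prod_of_mem N hs
      rw [show P = N s * t from ht, mul_comm, mul_smul]
      exact M.smul_mem _ (hNM s hs)
    | zero => simp
    | add u v _ _ hu hv => rw [smul_add]; exact add_mem hu hv
    | smul c u _ hu => rw [smul_comm]; exact M.smul_mem _ hu
  filter_upwards [hgrow.eventually_gt_atTop (P.natAbs ^ d), eventually_ge_atTop 1]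
    with n hn hn1 m hm
  set B := A ^ n - 1
  set D := (C ^ n - 1).det
  have hD : D ≠ 0 := fun h => by
    rw [h] at hn
    simp at hn
  have hB : B.det ≠ 0 := by
    rw [← (Int.cast_injective (α := ℂ)).ne_iff, Int.cast_zero,
      FA.ToralPeriodic.det_pow_sub_one A hn1, Ne, Multiset.prod_eq_zero_iff]
    simpa [sub_eq_zero] using fun z hz h => h1 z hz n hn1 h
  have hBinj : Function.Injective (B *ᵥ ·) := fun u v h =>
    Matrix.mulVec_injective_of_det_ne_zero hB h
  obtain ⟨c, hc⟩ : ∃ c, E c = k :=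
    ⟨b.equivFun ⟨k, hkM⟩, congrArg Subtype.val (b.equivFun.symm_apply_apply ⟨k, hkM⟩)⟩
  have hDm : D • m = E ((C ^ n - 1).adjugate *ᵥ c) := hBinj (by
    show B *ᵥ (D • m) = (A ^ n - 1) *ᵥ E ((C ^ n - 1).adjugate *ᵥ c)
    rw [hEn, mulVec_mulVec, mul_adjugate, smul_mulVec, one_mulVec, map_smul, hc, mulVec_smul, hm])
  have hmW : m ∈ W := ⟨D, hD, hDm ▸ hEmem _⟩
  -- so `P • M` is in the image of `B` on `M`
  have himage : ∀ x ∈ M, ∃ y ∈ M, B *ᵥ y = P • x := by
    intro x hx
    induction hx using Submodule.span_induction with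
    | mem x hx =>
      obtain ⟨i, rfl⟩ := hx
      refine ⟨(A ^ i) *ᵥ (P • m), ?_, ?_⟩
      · have hin : ∀ (j : ℕ), ∀ u ∈ M, (A ^ j) *ᵥ u ∈ M := fun j => by
          induction j with
          | zero => simp
          | succ j ih =>
            intro u hu
            rw [pow_succ', ← mulVec_mulVec]
            exact hinv _ (ih u hu)
        exact hin i _ (hPM m hmW)
      · rw [mulVec_mulVec, show B * A ^ i = A ^ i * B from
          (((Commute.refl A).pow_pow n i).sub_left (Commute.one_left _)).eq, ← mulVec_mulVec,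
          mulVec_smul, hm, mulVec_smul]
    | zero => exact ⟨0, M.zero_mem, by simp⟩
    | add u v _ _ hu hv =>
      obtain ⟨y, hy, hyu⟩ := hu
      obtain ⟨y', hy', hyv⟩ := hv
      exact ⟨y + y', add_mem hy hy', by rw [mulVec_add, hyu, hyv, smul_add]⟩
    | smul t u _ hu =>
      obtain ⟨y, hy, hyu⟩ := hu
      exact ⟨t • y, M.smul_mem t hy, by rw [mulVec_smul, hyu, smul_comm]⟩
  choose y hy hyB using fun j => himage _ (hEmem (Pi.single j 1))
  have hcol : ∀ j, (C ^ n - 1) *ᵥ b.equivFun ⟨y j, hy j⟩ = P • Pi.single j 1 := fun j => hE (by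
    rw [← hEn, map_smul, ← hyB j]
    exact congrArg _ (congrArg Subtype.val (b.equivFun.symm_apply_apply ⟨y j, hy j⟩)))
  set H : Matrix (Fin d) (Fin d) ℤ := .of fun i j => b.equivFun ⟨y j, hy j⟩ i
  have hH : (C ^ n - 1) * H = P • 1 := by
    ext i j
    have := congrFun (hcol j) i
    simpa [H, Matrix.mul_apply, Matrix.mulVec, dotProduct, Matrix.one_apply, Pi.single_apply]
      using this
  have hdet : D.natAbs ∣ P.natAbs ^ d := by
    rw [← Int.natAbs_pow]
    refine Int.natAbs_dvd_natAbs.2 ⟨H.det, ?_⟩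
    rw [← det_mul, hH, det_smul, det_one, mul_one, Fintype.card_fin]
  exact absurd (Nat.le_of_dvd (pow_pos (Int.natAbs_pos.2 hP0) d) hdet) (not_le.2 hn)

end FA.ToralEquidistribution

end
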