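import Fermat.Agent.ToralEquidistribution.Escape
import Fermat.Agent.ToralEquidistribution.Characters
import Mathlib.MeasureTheory.Measure.Haar.Unique
import Mathlib.Dynamics.Ergodic.Function

/-!
# Equidistribution of periodic points and ergodicity of toral endomorphisms

The characters decide both questions: their means over the periodic points vanish from some `n` on,
and the Fourier coefficients of an invariant set are constant along infinite orbits.
-/

set_option autoImplicit false

noncomputable section

namespace FA.ToralEquidistribution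

open FA.ToralEntropy FA.ToralPeriodic UnitAddTorus Matrix Filter Topology MeasureTheory

variable {ι : Type*} [Fintype ι]

theorem volume_eq_pi :
    (volume : Measure (ι → UnitAddCircle)) = Measure.pi fun _ => AddCircle.haarAddCircle := by
  rw [volume_pi, show (volume : Measure UnitAddCircle) = AddCircle.haarAddCircle by
    rw [AddCircle.volume_eq_smul_haarAddCircle, ENNReal.ofReal_one, one_smul]]

theorem isProbability_volume : IsProbabilityMeasure (volume : Measure (ι → UnitAddCircle)) :=
  ⟨volume_torus⟩

theorem integrable_of_continuous {f : (ι → UnitAddCircle) → ℂ} (hf : Continuous f) :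
    Integrable f volume := by
  have := isProbability_volume (ι := ι)
  exact hf.integrable_of_hasCompactSupport (HasCompactSupport.of_compactSpace f)

theorem integral_mFourier_eq_zero {k : ι → ℤ} (hk : k ≠ 0) :
    ∫ x : ι → UnitAddCircle, mFourier k x = 0 := by
  obtain ⟨x₀, hx₀⟩ := exists_mFourier_ne_one hk
  have h := integral_add_right_eq_self (μ := (volume : Measure (ι → UnitAddCircle))) (mFourier k) x₀
  simp only [mFourier_map_add, integral_mul_const] at h
  exact (mul_right_eq_self₀.1 h).resolve_left hx₀

variable [DecidableEq ι]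

/-- The characters have mean zero on the periodic points, from some `n` on. -/
theorem eventually_periodicMean_eq_zero (A : Matrix ι ι ℤ) (hA : A.det ≠ 0)
    (h1 : ∀ z ∈ A.charpoly.aroots ℂ, ∀ m : ℕ, 0 < m → z ^ m ≠ 1) {k : ι → ℤ} (hk : k ≠ 0) :
    ∀ᶠ n : ℕ in atTop, periodicMean A n (mFourier k) = 0 := by
  filter_upwards [eventually_ne_sub Aᵀ (by rwa [det_transpose]) (by rwa [charpoly_transpose]) hk,
    eventually_ge_atTop 1] with n hn hn1
  refine periodicMean_eq_zero A
    ((det_pow_sub_one_ne_zero_iff A hn1).2 fun z hz => h1 z hz n hn1) fun m hm => hn m ?_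
  rw [← transpose_pow, ← transpose_one, ← transpose_sub, mulVec_transpose]
  exact hm

/-- **Equidistribution of the periodic points.** -/
theorem tendsto_periodicMean (A : Matrix ι ι ℤ) (hA : A.det ≠ 0)
    (h1 : ∀ z ∈ A.charpoly.aroots ℂ, ∀ m : ℕ, 0 < m → z ^ m ≠ 1)
    (f : C(ι → UnitAddCircle, ℂ)) :
    Tendsto (fun n => periodicMean A n f) atTop (𝓝 (∫ x, f x)) := by
  classical
  have := isProbability_volume (ι := ι)
  have hfin : ∀ n : ℕ, 1 ≤ n → {x | (toral A)^[n] x = x}.Finite := fun n hn =>
    (fixedPoints_finite_iff A).2 h1 n hn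
  have hspan : ∀ g ∈ Submodule.span ℂ (Set.range (mFourier (d := ι))),
      Tendsto (fun n => periodicMean A n g) atTop (𝓝 (∫ x, g x)) := by
    intro g hg
    induction hg using Submodule.span_induction with
    | mem g hg =>
      obtain ⟨k, rfl⟩ := hg
      rcases eq_or_ne k 0 with rfl | hk
      · rw [mFourier_zero]
        refine tendsto_nhds_of_eventually_eq ?_
        filter_upwards [eventually_ge_atTop 1] with n hn
        rw [periodicMean_one A n (f := ⇑(1 : C(ι → UnitAddCircle, ℂ))) (hfin n hn) fun x _ => rfl]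
        simp
      · rw [integral_mFourier_eq_zero hk]
        exact tendsto_nhds_of_eventually_eq (eventually_periodicMean_eq_zero A hA h1 hk)
    | zero =>
      simp only [ContinuousMap.coe_zero, Pi.zero_apply, integral_zero]
      exact tendsto_const_nhds.congr' (Eventually.of_forall fun n => by simp [periodicMean])
    | add u v _ _ hu hv =>
      simp only [ContinuousMap.coe_add, Pi.add_apply]
      rw [integral_add (integrable_of_continuous u.continuous)
        (integrable_of_continuous v.continuous)]
      refine (hu.add hv).congr' ?_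
      filter_upwards [eventually_ge_atTop 1] with n hn
      simp only [periodicMean, finsum_mem_eq_finite_toFinset_sum _ (hfin n hn), ← mul_add,
        ← Finset.sum_add_distrib, Pi.add_apply]
    | smul c u _ hu =>
      simp only [ContinuousMap.coe_smul, Pi.smul_apply, smul_eq_mul, integral_const_mul]
      refine (hu.const_mul c).congr' ?_
      filter_upwards [eventually_ge_atTop 1] with n hn
      simp only [periodicMean, finsum_mem_eq_finite_toFinset_sum _ (hfin n hn), Finset.mul_sum,
        Pi.smul_apply, smul_eq_mul]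
      exact Finset.sum_congr rfl fun x _ => by ring
  rw [Metric.tendsto_atTop]
  intro ε hε
  have hf : f ∈ (Submodule.span ℂ (Set.range (mFourier (d := ι)))).topologicalClosure := by
    rw [span_mFourier_closure_eq_top]
    trivial
  obtain ⟨g, hg, hfg⟩ := Metric.mem_closure_iff.1 hf (ε / 3) (by positivity)
  obtain ⟨N, hN⟩ := Metric.tendsto_atTop.1 (hspan g hg) (ε / 3) (by positivity)
  refine ⟨max N 1, fun n hn => ?_⟩
  have hn1 := hfin n (le_of_max_le_right hn)
  have hb : ∀ x, ‖f x - g x‖ ≤ ε / 3 := fun x => by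
    rw [← ContinuousMap.sub_apply]
    exact ((f - g).norm_coe_le_norm x).trans (by rw [← dist_eq_norm]; exact hfg.le)
  have h1' : ‖periodicMean A n f - periodicMean A n g‖ ≤ ε / 3 := by
    simp only [periodicMean, finsum_mem_eq_finite_toFinset_sum _ hn1, ← mul_sub,
      ← Finset.sum_sub_distrib, norm_mul, norm_inv, Complex.norm_natCast]
    rw [Nat.card_coe_set_eq, Set.ncard_eq_toFinset_card _ hn1]
    rcases Nat.eq_zero_or_pos hn1.toFinset.card with h | h
    · rw [h, Nat.cast_zero, _root_.inv_zero, zero_mul]
      positivity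
    rw [inv_mul_le_iff₀ (by exact_mod_cast h)]
    refine (norm_sum_le _ _).trans ((Finset.sum_le_sum fun x _ => hb x).trans_eq ?_)
    rw [Finset.sum_const, nsmul_eq_mul]
  have h2' : ‖(∫ x, f x) - ∫ x, g x‖ ≤ ε / 3 := by
    rw [← integral_sub (integrable_of_continuous f.continuous)
      (integrable_of_continuous g.continuous)]
    refine (norm_integral_le_of_norm_le_const (ae_of_all _ hb)).trans_eq ?_
    simp
  have h3' := hN n (le_of_max_le_left hn)
  rw [dist_eq_norm] at h3' ⊢
  calc ‖periodicMean A n f - ∫ x, f x‖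
      = ‖(periodicMean A n f - periodicMean A n g) + (periodicMean A n g - ∫ x, g x) -
          ((∫ x, f x) - ∫ x, g x)‖ := by ring_nf
    _ ≤ ‖periodicMean A n f - periodicMean A n g‖ + ‖periodicMean A n g - ∫ x, g x‖ +
          ‖(∫ x, f x) - ∫ x, g x‖ := (norm_sub_le _ _).trans (add_le_add (norm_add_le _ _) le_rfl)
    _ < ε := by linarith

/-- A left kernel vector gives a character that is trivial on all periodic points. -/
theorem det_ne_zero_of_equidistributed (A : Matrix ι ι ℤ)
    (h1 : ∀ z ∈ A.charpoly.aroots ℂ, ∀ m : ℕ, 0 < m → z ^ m ≠ 1)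
    (h : ∀ f : C(ι → UnitAddCircle, ℂ),
      Tendsto (fun n => periodicMean A n f) atTop (𝓝 (∫ x, f x))) : A.det ≠ 0 := by
  intro hA
  obtain ⟨v, hv, hvA⟩ := exists_vecMul_eq_zero_iff.2 hA
  have hone : Tendsto (fun n => periodicMean A n (mFourier v)) atTop (𝓝 1) := by
    refine tendsto_nhds_of_eventually_eq ?_
    filter_upwards [eventually_ge_atTop 1] with n hn
    refine periodicMean_one A n ((fixedPoints_finite_iff A).2 h1 n hn) fun x hx => ?_
    obtain ⟨j, rfl⟩ := Nat.exists_eq_add_of_le' hn
    rw [Set.mem_ofPred_eq, iterate_toral] at hx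
    rw [← hx, mFourier_toral, pow_succ', ← vecMul_vecMul, hvA, zero_vecMul, mFourier_zero]
    rfl
  have := tendsto_nhds_unique hone (h (mFourier v))
  rw [integral_mFourier_eq_zero hv] at this
  exact one_ne_zero this

theorem toral_surjective {A : Matrix ι ι ℤ} (hA : A.det ≠ 0) : Function.Surjective (toral A) := by
  intro x
  obtain ⟨v, rfl⟩ := exists_proj_eq x
  have hunit : IsUnit (A.map (Int.cast : ℤ → ℝ)).det := by
    rw [← Int.cast_det]
    exact isUnit_iff_ne_zero.2 (Int.cast_ne_zero.2 hA)
  refine ⟨proj ((A.map (Int.cast : ℤ → ℝ))⁻¹ *ᵥ v), ?_⟩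
  rw [toral_proj, realMap, mulVecLin_apply, mulVec_mulVec, mul_nonsing_inv _ hunit, one_mulVec]

theorem measurePreserving_toral {A : Matrix ι ι ℤ} (hA : A.det ≠ 0) :
    MeasurePreserving (toral A) (volume : Measure (ι → UnitAddCircle)) volume :=
  (AddMonoidHom.mk' (toral A) (toral_add A)).measurePreserving (continuous_toral A)
    (toral_surjective hA) rfl

/-- **Ergodicity.** -/
theorem ergodic_toral {A : Matrix ι ι ℤ} (hA : A.det ≠ 0)
    (h1 : ∀ z ∈ A.charpoly.aroots ℂ, ∀ m : ℕ, 0 < m → z ^ m ≠ 1) :
    Ergodic (toral A) (volume : Measure (ι → UnitAddCircle)) := by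
  classical
  have hT := measurePreserving_toral hA
  refine ⟨hT, ⟨fun s hs hsA => ?_⟩⟩
  set g : (ι → UnitAddCircle) → ℂ := s.indicator fun _ => 1
  have hgT : ∀ x, g (toral A x) = g x := fun x => by
    simp only [g, Set.indicator_apply]
    exact if_congr (by rw [← Set.mem_preimage, hsA]) rfl rfl
  have hcoeff : ∀ k : ι → ℤ, ∫ x, mFourier (-(k ᵥ* A)) x * g x = ∫ x, mFourier (-k) x * g x := by
    intro k
    conv_rhs => rw [← hT.map_eq]
    rw [integral_map hT.aemeasurable]
    · refine integral_congr_ae (ae_of_all _ fun x => ?_)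
      simp only [mFourier_toral, hgT, neg_vecMul]
    · rw [hT.map_eq]
      exact ((mFourier _).continuous.measurable.mul
        (measurable_const.indicator hs)).aestronglyMeasurable
  rw [volume_eq_pi] at hcoeff ⊢
  set μ : Measure (UnitAddTorus ι) := Measure.pi fun _ => AddCircle.haarAddCircle
  have hmem : MemLp g 2 μ := memLp_indicator_const 2 hs 1 (Or.inr (measure_ne_top _ _))
  set G := hmem.toLp g
  have hG : ∀ k, mFourierCoeff G k = ∫ x, mFourier (-k) x * g x ∂μ := fun k =>
    integral_congr_ae (by filter_upwards [hmem.coeFn_toLp] with x hx; rw [hx, smul_eq_mul])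
  have hzero : ∀ k : ι → ℤ, k ≠ 0 → mFourierCoeff G k = 0 := by
    intro k hk
    have horbit : Function.Injective fun j : ℕ => k ᵥ* A ^ j := by
      intro i j hij
      by_contra hne
      wlog hlt : i < j generalizing i j
      · exact this hij.symm (Ne.symm hne) (lt_of_le_of_ne (not_lt.1 hlt) (Ne.symm hne))
      obtain ⟨m, rfl⟩ := Nat.exists_eq_add_of_le hlt.le
      have hdet : ((A ^ m - 1) * A ^ i).det ≠ 0 := by
        rw [det_mul, det_pow]
        refine mul_ne_zero ((det_pow_sub_one_ne_zero_iff A (by omega)).2 fun z hz => ?_)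
          (pow_ne_zero _ hA)
        exact h1 z hz m (by omega)
      refine hk (by_contra fun hk0 => hdet (exists_vecMul_eq_zero_iff.1 ⟨k, hk0, ?_⟩))
      rw [sub_mul, one_mul, ← pow_add, vecMul_sub, Nat.add_comm m i, sub_eq_zero]
      exact hij.symm
    have hconst : ∀ j : ℕ, mFourierCoeff G (k ᵥ* A ^ j) = mFourierCoeff G k := fun j => by
      induction j with
      | zero => simp
      | succ j ih => rw [← ih, hG, hG, pow_succ, ← vecMul_vecMul, hcoeff]
    have hsum := (hasSum_sq_mFourierCoeff G).summable.comp_injective horbit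
    simp only [Function.comp_def, hconst, summable_const_iff, sq_eq_zero_iff, norm_eq_zero] at hsum
    exact hsum
  have hGeq : G = mFourierCoeff G 0 • mFourierLp 2 0 :=
    (hasSum_mFourier_series_L2 G).unique
      (hasSum_single 0 fun k hk => by rw [hzero k hk, zero_smul])
  set c := mFourierCoeff G 0
  have hae : ∀ᵐ x ∂μ, g x = c := by
    have h1' : (G : UnitAddTorus ι → ℂ) =ᵐ[μ]
        fun x => c • (mFourierLp 2 0 : UnitAddTorus ι → ℂ) x :=
      (congrArg (fun u : Lp ℂ 2 μ => (u : UnitAddTorus ι → ℂ)) hGeq ▸
        Lp.coeFn_smul c (mFourierLp 2 0))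
    filter_upwards [hmem.coeFn_toLp, h1', coeFn_mFourierLp (d := ι) 2 0] with x hx hx' hx''
    rw [← hx, hx', hx'', mFourier_zero, ContinuousMap.one_apply, smul_eq_mul, mul_one]
  rw [eventuallyConst_set]
  by_cases hc : c = 1
  · left
    filter_upwards [hae] with x hx
    by_contra hxs
    simp [g, hxs, hc] at hx
  · right
    filter_upwards [hae] with x hx hxs
    simp [g, hxs] at hx
    exact hc hx.symm

/-- Ergodicity implies the two conditions. -/
theorem of_ergodic_toral {A : Matrix ι ι ℤ}
    (h : Ergodic (toral A) (volume : Measure (ι → UnitAddCircle))) :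
    A.det ≠ 0 ∧ ∀ z ∈ A.charpoly.aroots ℂ, ∀ m : ℕ, 0 < m → z ^ m ≠ 1 := by
  classical
  have := isProbability_volume (ι := ι)
  have hA : A.det ≠ 0 := by
    intro hA
    obtain ⟨v, hv, hvA⟩ := exists_vecMul_eq_zero_iff.2 hA
    have hi := integral_mFourier_eq_zero hv
    conv_lhs at hi => rw [← h.toMeasurePreserving.map_eq]
    rw [integral_map h.toMeasurePreserving.aemeasurable
      (mFourier v).continuous.aestronglyMeasurable] at hi
    simp [mFourier_toral, hvA, mFourier_zero] at hi
  refine ⟨hA, fun z hz m hm hzm => ?_⟩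
  have hdet : (A ^ m - 1).det = 0 := by
    by_contra hne
    exact (det_pow_sub_one_ne_zero_iff A hm).1 hne z hz hzm
  obtain ⟨v, hv, hvA⟩ := exists_vecMul_eq_zero_iff.2 hdet
  rw [vecMul_sub, vecMul_one, sub_eq_zero] at hvA
  set F : (ι → UnitAddCircle) → ℂ := fun x => ∑ j ∈ Finset.range m, mFourier (v ᵥ* A ^ j) x
  have hFc : Continuous F := continuous_finsetSum _ fun j _ => (mFourier _).continuous
  have hFT : F ∘ toral A = F := by
    funext x
    simp only [F, Function.comp_apply, mFourier_toral, vecMul_vecMul, ← pow_succ]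
    obtain ⟨l, rfl⟩ := Nat.exists_eq_add_of_le' hm
    rw [Finset.sum_range_succ, Finset.sum_range_succ' (fun j => mFourier (v ᵥ* A ^ j) x), hvA,
      pow_zero, vecMul_one]
  obtain ⟨c, hc⟩ := h.ae_eq_const_of_ae_eq_comp_ae hFc.aestronglyMeasurable
    (Eventually.of_forall fun x => congrFun hFT x)
  have hF0 : ∫ x, F x = 0 := by
    simp only [F]
    rw [integral_finsetSum _ fun j _ => integrable_of_continuous (mFourier _).continuous]
    refine Finset.sum_eq_zero fun j _ => integral_mFourier_eq_zero fun hj => hv ?_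
    by_contra hv0
    exact pow_ne_zero j hA (by rw [← det_pow]; exact exists_vecMul_eq_zero_iff.1 ⟨v, hv0, hj⟩)
  rw [integral_congr_ae hc] at hF0
  simp only [Function.const_apply, integral_const, probReal_univ, one_smul] at hF0
  have h0 := congrFun (Measure.eq_of_ae_eq hc hFc continuous_const) 0
  simp [F, hF0, mFourier_map_zero, hm.ne'] at h0

end FA.ToralEquidistribution

end
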